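import Fermat.Agent.Root.SummaryOrthogonalUnits
import Mathlib.Data.ZMod.Basic
import Mathlib.LinearAlgebra.Matrix.SpecialLinearGroup
import Mathlib.Topology.Algebra.Group.Quotient
import Mathlib.Topology.Algebra.IsUniformGroup.Basic
import Fermat.Agent.HoweMoore.Group

/-!
# A cocompact lattice in `SL(2, ℝ)`

The elements of norm one of the order `ℤ + ℤ i + ℤ j + ℤ i j` in the rational quaternion algebra
with `i² = -1` and `j² = 3`.  The norm form is anisotropic, so by Mahler's theorem every translate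
of the order has a bounded nonzero element, and those of bounded norm fall into finitely many
classes modulo the units.
-/

set_option autoImplicit false
set_option linter.unusedSectionVars false
set_option linter.style.haveILetI false

noncomputable section

open Matrix Set Topology
open scoped MatrixGroups

namespace FA.Horocycle

/-- Coordinates in the order. -/
abbrev Quad : Type := ℤ × ℤ × ℤ × ℤ

/-- The reduced norm. -/
def quadNorm (q : Quad) : ℤ := q.1 ^ 2 + q.2.1 ^ 2 - 3 * q.2.2.1 ^ 2 - 3 * q.2.2.2 ^ 2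

/-- The product. -/
def quadMul (p q : Quad) : Quad :=
  (p.1 * q.1 - p.2.1 * q.2.1 + 3 * p.2.2.1 * q.2.2.1 + 3 * p.2.2.2 * q.2.2.2,
    p.1 * q.2.1 + p.2.1 * q.1 + 3 * p.2.2.1 * q.2.2.2 - 3 * p.2.2.2 * q.2.2.1,
    p.1 * q.2.2.1 + p.2.2.1 * q.1 + p.2.1 * q.2.2.2 - p.2.2.2 * q.2.1,
    p.1 * q.2.2.2 + p.2.2.2 * q.1 + p.2.2.1 * q.2.1 - p.2.1 * q.2.2.1)

/-- The conjugate. -/
def quadConj (q : Quad) : Quad := (q.1, -q.2.1, -q.2.2.1, -q.2.2.2)

/-- The real matrix of an element. -/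
def quadMat (q : Quad) : Matrix (Fin 2) (Fin 2) ℝ :=
  !![q.1 + q.2.2.1 * Real.sqrt 3, q.2.1 + q.2.2.2 * Real.sqrt 3;
    -q.2.1 + q.2.2.2 * Real.sqrt 3, q.1 - q.2.2.1 * Real.sqrt 3]

theorem det_quadMat (q : Quad) : (quadMat q).det = (quadNorm q : ℝ) := by
  have h := Real.mul_self_sqrt (show (0 : ℝ) ≤ 3 by norm_num)
  simp only [quadMat, det_fin_two_of, quadNorm]
  push_cast
  linear_combination (-(q.2.2.1 : ℝ) ^ 2 - (q.2.2.2 : ℝ) ^ 2) * h

theorem quadMat_mul (p q : Quad) : quadMat p * quadMat q = quadMat (quadMul p q) := by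
  have h := Real.mul_self_sqrt (show (0 : ℝ) ≤ 3 by norm_num)
  ext i j
  fin_cases i <;> fin_cases j <;> simp [quadMat, quadMul, Matrix.mul_apply, Fin.sum_univ_two]
  · linear_combination ((p.2.2.1 : ℝ) * q.2.2.1 + p.2.2.2 * q.2.2.2) * h
  · linear_combination ((p.2.2.1 : ℝ) * q.2.2.2 - p.2.2.2 * q.2.2.1) * h
  · linear_combination (-((p.2.2.1 : ℝ) * q.2.2.2) + p.2.2.2 * q.2.2.1) * h
  · linear_combination ((p.2.2.1 : ℝ) * q.2.2.1 + p.2.2.2 * q.2.2.2) * h

theorem adjugate_quadMat (q : Quad) : adjugate (quadMat q) = quadMat (quadConj q) := by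
  rw [adjugate_fin_two]
  ext i j
  fin_cases i <;> fin_cases j <;> simp [quadMat, quadConj] <;> ring

theorem quadMat_one : quadMat (1, 0, 0, 0) = 1 := by
  ext i j
  fin_cases i <;> fin_cases j <;> simp [quadMat]

theorem three_dvd {a b : ℤ} (h : (3 : ℤ) ∣ a ^ 2 + b ^ 2) : 3 ∣ a ∧ 3 ∣ b := by
  have h1 := (ZMod.intCast_zmod_eq_zero_iff_dvd _ 3).2 h
  push_cast at h1
  have key : ∀ x y : ZMod 3, x ^ 2 + y ^ 2 = 0 → x = 0 ∧ y = 0 := by decide
  obtain ⟨ha, hb⟩ := key _ _ h1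
  exact ⟨(ZMod.intCast_zmod_eq_zero_iff_dvd a 3).1 ha,
    (ZMod.intCast_zmod_eq_zero_iff_dvd b 3).1 hb⟩

/-- The norm is anisotropic. -/
theorem eq_zero_of_quadNorm {q : Quad} (h : quadNorm q = 0) : q = 0 := by
  suffices H : ∀ n : ℕ, ∀ x y z w : ℤ, x.natAbs + y.natAbs + z.natAbs + w.natAbs ≤ n →
      x ^ 2 + y ^ 2 = 3 * (z ^ 2 + w ^ 2) → x = 0 ∧ y = 0 ∧ z = 0 ∧ w = 0 by
    obtain ⟨x, y, z, w⟩ := q
    obtain ⟨a, b, c, d⟩ := H _ x y z w le_rfl (by simp [quadNorm] at h; linarith)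
    rw [a, b, c, d]
    rfl
  intro n
  induction n with
  | zero => exact fun x y z w hle _ => ⟨by omega, by omega, by omega, by omega⟩
  | succ n ih =>
    intro x y z w hle he
    obtain ⟨⟨x', rfl⟩, y', rfl⟩ := three_dvd (a := x) (b := y) ⟨z ^ 2 + w ^ 2, he⟩
    have he' : z ^ 2 + w ^ 2 = 3 * (x' ^ 2 + y' ^ 2) := by nlinarith
    obtain ⟨⟨z', rfl⟩, w', rfl⟩ := three_dvd (a := z) (b := w) ⟨x' ^ 2 + y' ^ 2, he'⟩
    by_cases h0 : x' = 0 ∧ y' = 0 ∧ z' = 0 ∧ w' = 0
    · obtain ⟨a, b, c, d⟩ := h0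
      simp [a, b, c, d]
    · obtain ⟨a, b, c, d⟩ := ih x' y' z' w' (by
        simp only [Int.natAbs_mul, show (3 : ℤ).natAbs = 3 from rfl] at hle
        have : 0 < x'.natAbs + y'.natAbs + z'.natAbs + w'.natAbs := by
          by_contra hc
          exact h0 ⟨by omega, by omega, by omega, by omega⟩
        omega) (by nlinarith)
      simp [a, b, c, d]

/-- **The units of norm one.** -/
def unitGroup : Subgroup SL(2, ℝ) where
  carrier := {g | ∃ q, (g : Matrix (Fin 2) (Fin 2) ℝ) = quadMat q}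
  one_mem' := ⟨(1, 0, 0, 0), by rw [quadMat_one]; rfl⟩
  mul_mem' := by
    rintro a b ⟨p, hp⟩ ⟨q, hq⟩
    exact ⟨quadMul p q, by rw [SpecialLinearGroup.coe_mul, hp, hq, quadMat_mul]⟩
  inv_mem' := by
    rintro a ⟨p, hp⟩
    exact ⟨quadConj p, by rw [SpecialLinearGroup.coe_inv, hp, adjugate_quadMat]⟩

instance : Countable unitGroup := by
  have h : {g : SL(2, ℝ) | ∃ q, (g : Matrix (Fin 2) (Fin 2) ℝ) = quadMat q} ⊆
      Subtype.val ⁻¹' range quadMat := fun g ⟨q, hq⟩ => ⟨q, hq.symm⟩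
  exact (((countable_range quadMat).preimage Subtype.val_injective).mono h).to_subtype

instance : DiscreteTopology unitGroup := by
  refine discreteTopology_of_isOpen_singleton_one ?_
  have he : ∀ i j, Continuous fun g : unitGroup => (g.1 : Matrix (Fin 2) (Fin 2) ℝ) i j :=
    fun i j => (continuous_apply j).comp ((continuous_apply i).comp
      (continuous_subtype_val.comp continuous_subtype_val))
  have hopen : IsOpen {g : unitGroup | |g.1.1 0 0 + g.1.1 1 1 - 2| < 1 ∧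
      |g.1.1 0 1 - g.1.1 1 0| < 1 ∧ |g.1.1 0 0 - g.1.1 1 1| < 1 ∧
      |g.1.1 0 1 + g.1.1 1 0| < 1} :=
    (isOpen_lt (((he 0 0).add (he 1 1)).sub continuous_const).abs continuous_const).inter
      ((isOpen_lt ((he 0 1).sub (he 1 0)).abs continuous_const).inter
        ((isOpen_lt ((he 0 0).sub (he 1 1)).abs continuous_const).inter
          (isOpen_lt ((he 0 1).add (he 1 0)).abs continuous_const)))
  convert hopen using 1
  refine Subset.antisymm (singleton_subset_iff.2 (by simp; norm_num)) ?_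
  rintro ⟨g, q, hq⟩ ⟨h1, h2, h3, h4⟩
  simp only [hq, quadMat, of_apply, cons_val', cons_val_zero, cons_val_one, cons_val_fin_one]
    at h1 h2 h3 h4
  have hs : 1 ≤ Real.sqrt 3 := Real.one_le_sqrt.2 (by norm_num)
  have small : ∀ k : ℤ, |(2 : ℝ) * k| < 1 → k = 0 := fun k hk => by
    by_contra hk0
    have : (1 : ℝ) ≤ |(k : ℝ)| := by exact_mod_cast Int.one_le_abs hk0
    rw [abs_mul, abs_two] at hk
    linarith
  have small' : ∀ k : ℤ, |(2 : ℝ) * k * Real.sqrt 3| < 1 → k = 0 := fun k hk => small k (by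
    refine lt_of_le_of_lt ?_ hk
    rw [abs_mul _ (Real.sqrt 3), abs_of_pos (show 0 < Real.sqrt 3 by positivity)]
    exact le_mul_of_one_le_right (abs_nonneg _) hs)
  have hx : q.1 - 1 = 0 := small _ (by push_cast; ring_nf at h1 ⊢; exact h1)
  have hy : q.2.1 = 0 := small _ (by ring_nf at h2 ⊢; exact h2)
  have hz : q.2.2.1 = 0 := small' _ (by ring_nf at h3 ⊢; exact h3)
  have hw : q.2.2.2 = 0 := small' _ (by ring_nf at h4 ⊢; exact h4)
  have hq1 : q = (1, 0, 0, 0) := by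
    obtain ⟨x, y, z, w⟩ := q
    simp only at hx hy hz hw
    simp [hy, hz, hw, show x = 1 by omega]
  refine mem_singleton_iff.2 (Subtype.ext (Subtype.ext ?_))
  show (g : Matrix (Fin 2) (Fin 2) ℝ) = _
  rw [hq, hq1, quadMat_one]
  rfl

/-- The linear forms of a translate of the order, the first one divided by `12`. -/
def formMatrix (g : SL(2, ℝ)) : Matrix (Fin 4) (Fin 4) ℝ :=
  !![g 0 0 / 12, -g 0 1 / 12, g 0 0 * Real.sqrt 3 / 12, g 0 1 * Real.sqrt 3 / 12;
    g 0 1, g 0 0, -g 0 1 * Real.sqrt 3, g 0 0 * Real.sqrt 3;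
    g 1 0, -g 1 1, g 1 0 * Real.sqrt 3, g 1 1 * Real.sqrt 3;
    g 1 1, g 1 0, -g 1 1 * Real.sqrt 3, g 1 0 * Real.sqrt 3]

theorem abs_det_formMatrix (g : SL(2, ℝ)) : |(formMatrix g).det| = 1 := by
  have hd : g 0 0 * g 1 1 - g 0 1 * g 1 0 = 1 := by
    have := g.prop
    rwa [det_fin_two] at this
  have h := Real.mul_self_sqrt (show (0 : ℝ) ≤ 3 by norm_num)
  have e : (formMatrix g).det = (g 0 0 * g 1 1 - g 0 1 * g 1 0) ^ 2 := by
    simp [formMatrix, det_succ_row_zero, Fin.sum_univ_succ, Fin.succAbove]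
    linear_combination (g 0 0 * g 1 1 - g 0 1 * g 1 0) ^ 2 / 3 * h
  rw [e, hd]
  norm_num

theorem formMatrix_mulVec (g : SL(2, ℝ)) (v : Fin 4 → ℤ) :
    formMatrix g *ᵥ (fun k => (v k : ℝ)) =
      ![((g : Matrix (Fin 2) (Fin 2) ℝ) * quadMat (v 0, v 1, v 2, v 3)) 0 0 / 12,
        ((g : Matrix (Fin 2) (Fin 2) ℝ) * quadMat (v 0, v 1, v 2, v 3)) 0 1,
        ((g : Matrix (Fin 2) (Fin 2) ℝ) * quadMat (v 0, v 1, v 2, v 3)) 1 0,
        ((g : Matrix (Fin 2) (Fin 2) ℝ) * quadMat (v 0, v 1, v 2, v 3)) 1 1] := by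
  ext i
  fin_cases i <;> simp [formMatrix, quadMat, mulVec, dotProduct, Fin.sum_univ_four,
    Matrix.mul_apply, Fin.sum_univ_two] <;> ring

/-- Every translate of the order has a bounded nonzero element. -/
theorem exists_bounded_element :
    ∃ R : ℝ, ∀ g : SL(2, ℝ), ∃ q : Quad, q ≠ 0 ∧
      ∀ i j, |((g : Matrix (Fin 2) (Fin 2) ℝ) * quadMat q) i j| ≤ R := by
  obtain ⟨K, hK, -, hmah⟩ := FA.Summary.mahler_compactness 4 (show (0 : ℝ) < 1 / 12 by norm_num)
  obtain ⟨B, hB⟩ := hK.exists_bound_of_continuousOn (f := fun M : Matrix (Fin 4) (Fin 4) ℝ =>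
    fun i => M i 0) (Continuous.continuousOn (by fun_prop))
  refine ⟨12 * B, fun g => ?_⟩
  obtain ⟨U, hU⟩ := hmah (formMatrix g) (abs_det_formMatrix g) fun v hv => by
    set q : Quad := (v 0, v 1, v 2, v 3) with hq
    have hn : quadNorm q ≠ 0 := fun h => hv (by
      have h' := eq_zero_of_quadNorm h
      simp only [hq, Prod.mk_eq_zero] at h'
      ext k
      fin_cases k <;> simp [h'])
    set P := (g : Matrix (Fin 2) (Fin 2) ℝ) * quadMat q with hP
    have h1 : 1 ≤ |P 0 0 * P 1 1 - P 0 1 * P 1 0| := by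
      rw [← det_fin_two, hP, det_mul, g.prop, one_mul, det_quadMat]
      exact_mod_cast Int.one_le_abs hn
    rw [formMatrix_mulVec, Fin.sum_univ_four]
    simp only [cons_val_zero, cons_val_one, cons_val]
    have h2 := abs_sub (P 0 0 * P 1 1) (P 0 1 * P 1 0)
    rw [abs_mul, abs_mul] at h2
    nlinarith [sq_nonneg (|P 0 0| / 12 - |P 1 1|), sq_nonneg (|P 0 1| - |P 1 0|),
      sq_abs (P 0 0), sq_abs (P 1 1), sq_abs (P 0 1), sq_abs (P 1 0)]
  set M := formMatrix g * (U : Matrix (Fin 4) (Fin 4) ℤ).map (fun z : ℤ => (z : ℝ)) with hM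
  set v : Fin 4 → ℤ := fun k => (U : Matrix (Fin 4) (Fin 4) ℤ) k 0 with hv
  have hcol : (fun i => M i 0) = formMatrix g *ᵥ fun k => (v k : ℝ) := rfl
  have hv0 : v ≠ 0 := fun h => by
    have h1 : (U : Matrix (Fin 4) (Fin 4) ℤ).det = 0 :=
      det_eq_zero_of_column_eq_zero 0 fun k => congrFun h k
    exact ((Matrix.isUnit_iff_isUnit_det _).1 U.isUnit).ne_zero h1
  refine ⟨(v 0, v 1, v 2, v 3), fun h => hv0 ?_, fun i j => ?_⟩
  · simp only [Prod.mk_eq_zero] at h
    ext k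
    fin_cases k <;> simp [h]
  · have h1 : ∀ k, |(formMatrix g *ᵥ fun k => (v k : ℝ)) k| ≤ B := fun k => by
      rw [← hcol, ← Real.norm_eq_abs]
      exact (norm_le_pi_norm (fun i => M i 0) k).trans (hB M hU)
    rw [formMatrix_mulVec] at h1
    have hB0 : 0 ≤ B := (norm_nonneg _).trans (hB M hU)
    fin_cases i <;> fin_cases j
    · have h2 := h1 0
      simp only [cons_val_zero, abs_div, abs_of_pos (show (0 : ℝ) < 12 by norm_num)] at h2
      rw [div_le_iff₀ (by norm_num)] at h2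
      simpa [mul_comm] using h2
    · have h2 := h1 1
      simp at h2 ⊢
      linarith
    · have h2 := h1 2
      simp at h2 ⊢
      linarith
    · have h2 := h1 3
      simp at h2 ⊢
      linarith

/-- The class of an element of nonzero norm. -/
def quadClass (q : Quad) : ℤ × Quad :=
  (quadNorm q, q.1 % quadNorm q, q.2.1 % quadNorm q, q.2.2.1 % quadNorm q, q.2.2.2 % quadNorm q)

/-- Elements in one class differ by a unit. -/
theorem exists_unit_of_class {x q : Quad} (hq : quadNorm q ≠ 0) (h : quadClass x = quadClass q) :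
    ∃ γ ∈ unitGroup, (γ : Matrix (Fin 2) (Fin 2) ℝ) * quadMat q = quadMat x := by
  obtain ⟨x1, x2, x3, x4⟩ := x
  obtain ⟨q1, q2, q3, q4⟩ := q
  simp only [quadClass, Prod.mk.injEq] at h
  obtain ⟨hn, e1, e2, e3, e4⟩ := h
  set m := quadNorm (q1, q2, q3, q4) with hm
  rw [hn] at e1 e2 e3 e4
  obtain ⟨a1, h1⟩ := (Int.ModEq.dvd e1.symm : m ∣ x1 - q1)
  obtain ⟨a2, h2⟩ := (Int.ModEq.dvd e2.symm : m ∣ x2 - q2)
  obtain ⟨a3, h3⟩ := (Int.ModEq.dvd e3.symm : m ∣ x3 - q3)
  obtain ⟨a4, h4⟩ := (Int.ModEq.dvd e4.symm : m ∣ x4 - q4)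
  set p : Quad := quadMul (a1, a2, a3, a4) (quadConj (q1, q2, q3, q4)) with hp
  set r : Quad := (p.1 + 1, p.2.1, p.2.2.1, p.2.2.2) with hr
  have hmul : quadMul r (q1, q2, q3, q4) = (x1, x2, x3, x4) := by
    have hx1 : x1 = q1 + m * a1 := by linarith
    have hx2 : x2 = q2 + m * a2 := by linarith
    have hx3 : x3 = q3 + m * a3 := by linarith
    have hx4 : x4 = q4 + m * a4 := by linarith
    simp only [hr, hp, quadMul, quadConj, hx1, hx2, hx3, hx4, hm, quadNorm, Prod.mk.injEq]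
    refine ⟨by ring, by ring, by ring, by ring⟩
  have hdet : (quadMat r).det = 1 := by
    have h5 := congrArg Matrix.det (quadMat_mul r (q1, q2, q3, q4))
    rw [hmul, det_mul, det_quadMat, det_quadMat, det_quadMat, hn, ← hm] at h5
    rw [det_quadMat]
    exact (mul_eq_right₀ (Int.cast_ne_zero.2 hq)).1 h5
  exact ⟨⟨quadMat r, hdet⟩, ⟨r, rfl⟩, by
    show quadMat r * _ = _
    rw [quadMat_mul, hmul]⟩

/-- **The units form a cocompact subgroup.** -/
instance : CompactSpace (SL(2, ℝ) ⧸ unitGroup) := by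
  obtain ⟨R, hR⟩ := exists_bounded_element
  set M : ℤ := ⌈2 * R ^ 2⌉ with hM
  set Q : Set Quad := {q | q ≠ 0 ∧ |quadNorm q| ≤ M} with hQ
  have hfin : (quadClass '' Q).Finite := by
    refine ((finite_Icc (-M) M).prod ((finite_Icc 0 M).prod ((finite_Icc 0 M).prod
      ((finite_Icc 0 M).prod (finite_Icc 0 M))))).subset ?_
    rintro _ ⟨q, ⟨hq0, hqM⟩, rfl⟩
    have hne : quadNorm q ≠ 0 := fun h => hq0 (eq_zero_of_quadNorm h)
    have hmod : ∀ a : ℤ, a % quadNorm q ∈ Icc 0 M := fun a =>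
      ⟨Int.emod_nonneg a hne, (Int.emod_lt_abs a hne).le.trans hqM⟩
    exact ⟨mem_Icc.2 (abs_le.1 hqM), hmod _, hmod _, hmod _, hmod _⟩
  haveI : Nonempty Quad := ⟨0⟩
  set rep := Function.invFunOn quadClass Q
  set box : Set (Matrix (Fin 2) (Fin 2) ℝ) := univ.pi fun _ => univ.pi fun _ => Icc (-R) R
  have hbox : IsCompact box := isCompact_univ_pi fun _ => isCompact_univ_pi fun _ => isCompact_Icc
  set K : Set SL(2, ℝ) := Subtype.val ⁻¹'
    ⋃ c ∈ quadClass '' Q, (fun P => P * (quadMat (rep c))⁻¹) '' box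
  have hK : IsCompact K := SpecialLinearGroup.isClosedEmbedding_val.isCompact_preimage
    (hfin.isCompact_biUnion fun c _ => hbox.image (continuous_id.matrix_mul continuous_const))
  refine ⟨?_⟩
  have hsurj : (QuotientGroup.mk : SL(2, ℝ) → SL(2, ℝ) ⧸ unitGroup) '' K = univ :=
    eq_univ_of_forall fun y => by
      induction y using QuotientGroup.induction_on with
      | _ g =>
      obtain ⟨x, hx0, hxR⟩ := hR g
      set P := (g : Matrix (Fin 2) (Fin 2) ℝ) * quadMat x with hP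
      have hxQ : x ∈ Q := by
        refine ⟨hx0, ?_⟩
        have h1 : (|quadNorm x| : ℝ) ≤ 2 * R ^ 2 := by
          rw [show (quadNorm x : ℝ) = P.det by rw [hP, det_mul, g.prop, one_mul, det_quadMat],
            det_fin_two]
          have hR0 : 0 ≤ R := (abs_nonneg _).trans (hxR 0 0)
          refine (abs_sub _ _).trans ?_
          rw [abs_mul, abs_mul]
          nlinarith [hxR 0 0, hxR 1 1, hxR 0 1, hxR 1 0, abs_nonneg (P 0 0), abs_nonneg (P 1 1),
            abs_nonneg (P 0 1), abs_nonneg (P 1 0)]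
        exact_mod_cast h1.trans (Int.le_ceil (2 * R ^ 2))
      have hc : quadClass x ∈ quadClass '' Q := mem_image_of_mem _ hxQ
      have hrep : rep (quadClass x) ∈ Q := Function.invFunOn_mem hc
      have hne : quadNorm (rep (quadClass x)) ≠ 0 := fun h => hrep.1 (eq_zero_of_quadNorm h)
      obtain ⟨γ, hγ, hγx⟩ := exists_unit_of_class hne (Function.invFunOn_eq hc).symm
      refine ⟨g * γ, mem_iUnion₂.2 ⟨_, hc, P, fun i _ j _ => abs_le.1 (hxR i j), ?_⟩,
        QuotientGroup.mk_mul_of_mem g hγ⟩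
      show P * _ = _
      rw [hP, SpecialLinearGroup.coe_mul, ← hγx, ← Matrix.mul_assoc, mul_nonsing_inv_cancel_right]
      rw [det_quadMat]
      exact isUnit_iff_ne_zero.2 (Int.cast_ne_zero.2 hne)
  rw [← hsurj]
  exact hK.image QuotientGroup.continuous_mk

end FA.Horocycle

end
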