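import Fermat.Agent.Horocycle.Ergodic
import Mathlib.Analysis.Calculus.Deriv.Inv
import Mathlib.MeasureTheory.Integral.IntervalIntegral.IntegrationByParts

/-!
# Expanded pieces of horocycles are equicontinuous

Moving the start of a horocycle by a small element moves its points by small contracted elements and
reparametrises it by a Möbius map close to the identity, so the integrals of a continuous function
over the expanded unit pieces are equicontinuous uniformly in the expansion.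
-/

set_option autoImplicit false
set_option linter.unusedSectionVars false
set_option linter.style.haveILetI false

noncomputable section

open MeasureTheory Filter Topology Set Matrix
open scoped MatrixGroups

namespace FA.Horocycle

open FA.HoweMoore

theorem upperU_mul_eq (g : SL(2, ℝ)) (s : ℝ) (hp : g 0 0 + s * g 1 0 ≠ 0) :
    upperU s * g = mk2 (g 0 0 + s * g 1 0) 0 (g 1 0) (g 0 0 + s * g 1 0)⁻¹
        (by rw [mul_inv_cancel₀ hp]; ring) *
      upperU ((g 0 1 + s * g 1 1) / (g 0 0 + s * g 1 0)) := by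
  have hdet := det2 g
  apply ext2 <;> simp [mul_apply2, upperU]
  · field_simp
  · rw [inv_eq_one_div, mul_div_assoc', ← add_div, eq_div_iff hp]
    linear_combination hdet

theorem diagA_mul_lower {p q : ℝ} (hp : p ≠ 0) (t : ℝ) :
    diagA t * mk2 p 0 q p⁻¹ (by rw [mul_inv_cancel₀ hp]; ring) =
      mk2 p 0 (q * Real.exp (-(2 * t))) p⁻¹ (by rw [mul_inv_cancel₀ hp]; ring) * diagA t := by
  have h : q * Real.exp (-(2 * t)) * Real.exp t = Real.exp (-t) * q := by
    rw [mul_assoc, ← Real.exp_add, mul_comm]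
    ring_nf
  apply ext2 <;> simp [mul_apply2, diagA] <;> linarith [h]

variable (Γ : Subgroup SL(2, ℝ))

/-- The integral over an expanded unit piece. -/
def piece (φ : C(SL(2, ℝ) ⧸ Γ, ℝ)) (t : ℝ) (x : SL(2, ℝ) ⧸ Γ) : ℝ :=
  ∫ s in (0 : ℝ)..1, φ ((diagA t * upperU s) • x)

theorem continuous_orbit (φ : C(SL(2, ℝ) ⧸ Γ, ℝ)) (t : ℝ) (x : SL(2, ℝ) ⧸ Γ) :
    Continuous fun s => φ ((diagA t * upperU s) • x) :=
  φ.continuous.comp ((continuous_const.mul continuous_upperU).smul continuous_const)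

variable [CompactSpace (SL(2, ℝ) ⧸ Γ)]

/-- Continuous functions on the compact quotient are uniformly continuous along the action. -/
theorem eventually_forall_smul (φ : C(SL(2, ℝ) ⧸ Γ, ℝ)) {ε : ℝ} (hε : 0 < ε) :
    ∀ᶠ k in 𝓝 (1 : SL(2, ℝ)), ∀ x, |φ (k • x) - φ x| < ε := by
  have hc : Continuous fun p : SL(2, ℝ) × (SL(2, ℝ) ⧸ Γ) => |φ (p.1 • p.2) - φ p.2| :=
    ((φ.continuous.comp (continuous_fst.smul continuous_snd)).sub
      (φ.continuous.comp continuous_snd)).abs
  refine (isCompact_univ.eventually_forall_of_forall_eventually fun x _ =>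
    (hc.tendsto (1, x)).eventually (gt_mem_nhds (by simpa using hε))).mono
      fun k hk x => hk x trivial

/-- **Equicontinuity of the pieces.** -/
theorem eventually_piece (φ : C(SL(2, ℝ) ⧸ Γ, ℝ)) {ε : ℝ} (hε : 0 < ε) :
    ∀ᶠ g in 𝓝 (1 : SL(2, ℝ)), ∀ t : ℝ, 0 ≤ t → ∀ x, |piece Γ φ t (g • x) - piece Γ φ t x| ≤ ε := by
  obtain ⟨M, hM⟩ : ∃ M, ∀ x, |φ x| ≤ M :=
    ⟨‖φ‖, fun x => ContinuousMap.norm_coe_le_norm φ x⟩
  set δ := ε / (4 * (|M| + 1)) with hδ
  have hδ0 : 0 < δ := by positivity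
  obtain ⟨W, hW, hWsub⟩ : ∃ W : Set (Matrix (Fin 2) (Fin 2) ℝ), W ∈ 𝓝 (1 : Matrix (Fin 2) (Fin 2) ℝ)
      ∧ ∀ k : SL(2, ℝ), (k : Matrix (Fin 2) (Fin 2) ℝ) ∈ W → ∀ x, |φ (k • x) - φ x| < ε / 4 := by
    have h := eventually_forall_smul Γ φ (show 0 < ε / 4 by positivity)
    obtain ⟨O, hsub, hO, h1⟩ := mem_nhds_iff.1 (show {k | _} ∈ _ from h)
    obtain ⟨W, hW, rfl⟩ := (Matrix.SpecialLinearGroup.isClosedEmbedding_val
      (n := Fin 2) (R := ℝ)).isInducing.isOpen_iff.1 hO
    exact ⟨W, hW.mem_nhds h1, fun k hk => hsub hk⟩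
  -- the reparametrisation is close to the identity
  have hev : ∀ᶠ g in 𝓝 (1 : SL(2, ℝ)), ∀ p ∈ Icc (0 : ℝ) 1 ×ˢ Icc (0 : ℝ) 1,
      0 < g 0 0 + p.1 * g 1 0 ∧
        !![g 0 0 + p.1 * g 1 0, 0; g 1 0 * p.2, (g 0 0 + p.1 * g 1 0)⁻¹] ∈ W ∧
        |((g 0 0 + p.1 * g 1 0) ^ 2)⁻¹ - 1| < δ := by
    refine (isCompact_Icc.prod isCompact_Icc).eventually_forall_of_forall_eventually fun p _ => ?_
    have he : ∀ i j, Continuous fun q : SL(2, ℝ) × (ℝ × ℝ) => q.1 i j := fun i j =>
      (continuous_apply j).comp ((continuous_apply i).comp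
        (continuous_subtype_val.comp continuous_fst))
    have hP : Continuous fun q : SL(2, ℝ) × (ℝ × ℝ) => q.1 0 0 + q.2.1 * q.1 1 0 :=
      (he 0 0).add ((continuous_fst.comp continuous_snd).mul (he 1 0))
    have hP1 : (1 : SL(2, ℝ)) 0 0 + p.1 * (1 : SL(2, ℝ)) 1 0 = 1 := by simp
    have h1 := (hP.tendsto (1, p)).eventually (lt_mem_nhds (a := 0) (by rw [hP1]; exact one_pos))
    have hmat : ContinuousAt (fun q : SL(2, ℝ) × (ℝ × ℝ) =>
        (!![q.1 0 0 + q.2.1 * q.1 1 0, 0; q.1 1 0 * q.2.2, (q.1 0 0 + q.2.1 * q.1 1 0)⁻¹] :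
          Matrix (Fin 2) (Fin 2) ℝ)) (1, p) := by
      refine continuousAt_pi.2 fun i => continuousAt_pi.2 fun j => ?_
      fin_cases i <;> fin_cases j
      · exact hP.continuousAt
      · exact continuousAt_const
      · exact ((he 1 0).mul (continuous_snd.comp continuous_snd)).continuousAt
      · exact hP.continuousAt.inv₀ (by simp)
    have h2 := hmat.eventually_mem (s := W) (by
      convert hW using 2
      ext i j
      fin_cases i <;> fin_cases j <;> simp)
    have h3 : ∀ᶠ q : SL(2, ℝ) × (ℝ × ℝ) in 𝓝 (1, p),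
        |((q.1 0 0 + q.2.1 * q.1 1 0) ^ 2)⁻¹ - 1| < δ :=
      (((hP.pow 2).continuousAt.inv₀ (by simp)).sub continuousAt_const).abs.eventually
        (gt_mem_nhds (by simpa using hδ0))
    filter_upwards [h1, h2, h3] with q a b c using ⟨a, b, c⟩
  have hends : ∀ᶠ g in 𝓝 (1 : SL(2, ℝ)), |g 0 1 / g 0 0| < δ ∧
      |(g 0 1 + g 1 1) / (g 0 0 + g 1 0) - 1| < δ := by
    have he : ∀ i j, ContinuousAt (fun g : SL(2, ℝ) => g i j) 1 := fun i j =>
      ((continuous_apply j).comp ((continuous_apply i).comp continuous_subtype_val)).continuousAt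
    refine Filter.Eventually.and ?_ ?_
    · exact ((he 0 1).div (he 0 0) (by simp)).abs.eventually (gt_mem_nhds (by simpa using hδ0))
    · exact ((((he 0 1).add (he 1 1)).div ((he 0 0).add (he 1 0)) (by simp)).sub
        continuousAt_const).abs.eventually (gt_mem_nhds (by simpa using hδ0))
  filter_upwards [hev, hends] with g hg hge t ht x
  set P : ℝ → ℝ := fun s => g 0 0 + s * g 1 0 with hP
  set hmap : ℝ → ℝ := fun s => (g 0 1 + s * g 1 1) / P s with hh
  set F : ℝ → ℝ := fun u => φ ((diagA t * upperU u) • x) with hF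
  have hFc : Continuous F := continuous_orbit Γ φ t x
  have hr : Real.exp (-(2 * t)) ∈ Icc (0 : ℝ) 1 :=
    ⟨(Real.exp_pos _).le, Real.exp_le_one_iff.2 (by linarith)⟩
  have hpos : ∀ s ∈ Icc (0 : ℝ) 1, 0 < P s := fun s hs => (hg (s, _) ⟨hs, hr⟩).1
  have hu : uIcc (0 : ℝ) 1 = Icc 0 1 := uIcc_of_le zero_le_one
  have hderiv : ∀ s ∈ uIcc (0 : ℝ) 1, HasDerivAt hmap ((P s ^ 2)⁻¹) s := fun s hs => by
    rw [hu] at hs
    have h := ((((hasDerivAt_id s).mul_const (g 1 1)).const_add (g 0 1)).div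
      (((hasDerivAt_id s).mul_const (g 1 0)).const_add (g 0 0)) (hpos s hs).ne')
    refine h.congr_deriv ?_
    have hdet := det2 g
    simp only [id, one_mul]
    rw [show g 1 1 * (g 0 0 + s * g 1 0) - (g 0 1 + s * g 1 1) * g 1 0 = 1 by
      linear_combination hdet, one_div]
  have hcont : ContinuousOn (fun s => (P s ^ 2)⁻¹) (uIcc (0 : ℝ) 1) := by
    rw [hu]
    exact (((continuous_const.add (continuous_id.mul continuous_const)).pow 2).continuousOn).inv₀
      fun s hs => pow_ne_zero 2 (hpos s hs).ne'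
  have hsub : ∫ s in (0 : ℝ)..1, F (hmap s) * (P s ^ 2)⁻¹ = ∫ u in hmap 0..hmap 1, F u :=
    intervalIntegral.integral_comp_mul_deriv hderiv hcont hFc
  have hmapc : ContinuousOn hmap (uIcc (0 : ℝ) 1) := fun s hs =>
    (hderiv s hs).continuousAt.continuousWithinAt
  have hMb : ∀ y, |φ y| ≤ |M| := fun y => (hM y).trans (le_abs_self M)
  have hMδ : |M| * δ ≤ ε / 4 := by
    rw [hδ, mul_div_assoc', div_le_div_iff₀ (by positivity) (by norm_num)]
    nlinarith [abs_nonneg M]
  -- the three errors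
  have h1 : |piece Γ φ t (g • x) - ∫ s in (0 : ℝ)..1, F (hmap s)| ≤ ε / 4 := by
    have hi1 := (continuous_orbit Γ φ t (g • x)).intervalIntegrable (μ := volume) 0 1
    have hi2 : IntervalIntegrable (fun s => F (hmap s)) volume 0 1 :=
      (hFc.comp_continuousOn hmapc).intervalIntegrable
    rw [piece, ← intervalIntegral.integral_sub hi1 hi2, ← Real.norm_eq_abs]
    refine (intervalIntegral.norm_integral_le_of_norm_le_const (C := ε / 4) fun s hs => ?_).trans
      (by simp)
    rw [uIoc_of_le zero_le_one] at hs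
    obtain ⟨hp, hk, -⟩ := hg (s, Real.exp (-(2 * t))) ⟨Ioc_subset_Icc_self hs, hr⟩
    have e : (diagA t * upperU s) • g • x =
        mk2 (P s) 0 (g 1 0 * Real.exp (-(2 * t))) (P s)⁻¹
          (by rw [mul_inv_cancel₀ hp.ne']; ring) • (diagA t * upperU (hmap s)) • x := by
      rw [← mul_smul, ← mul_smul, ← mul_assoc, mul_assoc (diagA t), upperU_mul_eq g s hp.ne',
        ← mul_assoc (diagA t), diagA_mul_lower hp.ne']
    rw [Real.norm_eq_abs, e]
    exact (hWsub _ (by simpa using hk) _).le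
  have h2 : |(∫ s in (0 : ℝ)..1, F (hmap s)) - ∫ u in hmap 0..hmap 1, F u| ≤ ε / 4 := by
    have hi1 : IntervalIntegrable (fun s => F (hmap s)) volume 0 1 :=
      (hFc.comp_continuousOn hmapc).intervalIntegrable
    have hi2 : IntervalIntegrable (fun s => F (hmap s) * (P s ^ 2)⁻¹) volume 0 1 :=
      ((hFc.comp_continuousOn hmapc).mul hcont).intervalIntegrable
    rw [← hsub, ← intervalIntegral.integral_sub hi1 hi2, ← Real.norm_eq_abs]
    refine (intervalIntegral.norm_integral_le_of_norm_le_const (C := ε / 4) fun s hs => ?_).trans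
      (by simp)
    rw [uIoc_of_le zero_le_one] at hs
    have hd := (hg (s, Real.exp (-(2 * t))) ⟨Ioc_subset_Icc_self hs, hr⟩).2.2
    rw [Real.norm_eq_abs, ← mul_one_sub, abs_mul, abs_sub_comm]
    exact (mul_le_mul (hMb _) hd.le (abs_nonneg _) (abs_nonneg M)).trans hMδ
  have h3 : |(∫ u in hmap 0..hmap 1, F u) - piece Γ φ t x| ≤ ε / 4 + ε / 4 := by
    have hii : ∀ a b : ℝ, IntervalIntegrable F volume a b := fun a b => hFc.intervalIntegrable a b
    have hb : ∀ a b : ℝ, |b - a| < δ → |∫ u in a..b, F u| ≤ ε / 4 := fun a b hab => by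
      rw [← Real.norm_eq_abs]
      exact (intervalIntegral.norm_integral_le_of_norm_le_const fun u _ =>
        (Real.norm_eq_abs _).trans_le (hMb _)).trans
          ((mul_le_mul_of_nonneg_left hab.le (abs_nonneg M)).trans hMδ)
    have e : (∫ u in hmap 0..hmap 1, F u) - piece Γ φ t x =
        (∫ u in hmap 0..0, F u) + ∫ u in (1 : ℝ)..hmap 1, F u := by
      have ha := intervalIntegral.integral_add_adjacent_intervals (hii (hmap 0) 0) (hii 0 1)
      have hc := intervalIntegral.integral_add_adjacent_intervals (hii (hmap 0) 1) (hii 1 (hmap 1))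
      rw [← hc, ← ha, piece]
      ring
    rw [e]
    refine (abs_add_le _ _).trans (add_le_add (hb _ _ ?_) (hb _ _ ?_))
    · simpa [hh, hP] using hge.1
    · simpa [hh, hP] using hge.2
  calc |piece Γ φ t (g • x) - piece Γ φ t x| ≤ _ := abs_sub_le _ (∫ u in hmap 0..hmap 1, F u) _
    _ ≤ (|piece Γ φ t (g • x) - ∫ s in (0 : ℝ)..1, F (hmap s)| +
        |(∫ s in (0 : ℝ)..1, F (hmap s)) - ∫ u in hmap 0..hmap 1, F u|) +
        |(∫ u in hmap 0..hmap 1, F u) - piece Γ φ t x| :=
      add_le_add (abs_sub_le _ _ _) le_rfl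
    _ ≤ ε := by linarith

end FA.Horocycle

end
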