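import Fermat.Agent.Horocycle.Equicontinuous
import Mathlib.MeasureTheory.Integral.Prod
import Mathlib.MeasureTheory.Integral.DominatedConvergence
import Mathlib.MeasureTheory.Measure.HasOuterApproxClosed

/-!
# Uniform equidistribution and unique ergodicity

The expanded pieces are equicontinuous and converge weakly to the mean, hence uniformly.  Rescaling
turns them into averages along horocycles, so every invariant probability measure is the normalised
Haar measure and every horocycle is dense.
-/

set_option autoImplicit false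
set_option linter.unusedSectionVars false
set_option linter.style.haveILetI false

noncomputable section

open MeasureTheory MeasureTheory.Measure Filter Topology Set
open scoped MatrixGroups BoundedContinuousFunction

namespace FA.Horocycle

open FA.HoweMoore

variable (Γ : Subgroup SL(2, ℝ)) [DiscreteTopology Γ] [CompactSpace (SL(2, ℝ) ⧸ Γ)] [Countable Γ]
  [MeasurableSpace SL(2, ℝ)] [BorelSpace SL(2, ℝ)]

theorem secondCountable_quotient : SecondCountableTopology (SL(2, ℝ) ⧸ Γ) :=
  (QuotientGroup.isOpenQuotientMap_mk).isQuotientMap.secondCountableTopology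
    QuotientGroup.isOpenQuotientMap_mk.isOpenMap

theorem integral_piece_eq (φ : C(SL(2, ℝ) ⧸ Γ, ℝ)) (t : ℝ) (O : Set (SL(2, ℝ) ⧸ Γ)) :
    ∫ x in O, piece Γ φ t x ∂probMeasure Γ =
      ∫ s in (0 : ℝ)..1, ∫ x in O, φ ((diagA t * upperU s) • x) ∂probMeasure Γ := by
  haveI := secondCountable_quotient Γ
  simp only [piece, intervalIntegral.integral_of_le zero_le_one]
  refine integral_integral_swap ?_
  refine Integrable.of_bound ?_ ‖φ‖ (.of_forall fun p => ?_)
  · exact (φ.continuous.comp (((continuous_const.mul (continuous_upperU.comp continuous_snd))).smul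
      continuous_fst)).aestronglyMeasurable
  · exact φ.norm_coe_le_norm _

/-- The pieces converge weakly to the mean. -/
theorem tendsto_setIntegral_piece (φ : C(SL(2, ℝ) ⧸ Γ, ℝ)) {O : Set (SL(2, ℝ) ⧸ Γ)}
    (hO : MeasurableSet O) :
    Tendsto (fun t => ∫ x in O, piece Γ φ t x ∂probMeasure Γ) atTop
      (𝓝 ((∫ x, φ x ∂probMeasure Γ) * (probMeasure Γ).real O)) := by
  haveI := secondCountable_quotient Γ
  simp only [integral_piece_eq]
  have h := intervalIntegral.tendsto_integral_filter_of_dominated_convergence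
    (μ := (volume : Measure ℝ)) (a := 0) (b := 1) (l := (atTop : Filter ℝ))
    (F := fun t s => ∫ x in O, φ ((diagA t * upperU s) • x) ∂probMeasure Γ)
    (f := fun _ => (∫ x, φ x ∂probMeasure Γ) * (probMeasure Γ).real O)
    (fun _ => ‖φ‖ * (probMeasure Γ).real O)
    (.of_forall fun t => ((((φ.continuous.comp ((continuous_const.mul (continuous_upperU.comp
      continuous_fst)).smul continuous_snd)).stronglyMeasurable).integral_prod_right'
        (ν := (probMeasure Γ).restrict O))).aestronglyMeasurable)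
    (.of_forall fun t => .of_forall fun s _ =>
      norm_setIntegral_le_of_norm_le_const (measure_lt_top _ _) fun x _ => φ.norm_coe_le_norm _)
    intervalIntegrable_const (.of_forall fun s _ => tendsto_setIntegral_translate Γ φ hO s)
  simpa using h

/-- **Uniform equidistribution of expanded pieces.** -/
theorem eventually_piece_mean (φ : C(SL(2, ℝ) ⧸ Γ, ℝ)) {ε : ℝ} (hε : 0 < ε) :
    ∀ᶠ t in atTop, ∀ x, |piece Γ φ t x - ∫ y, φ y ∂probMeasure Γ| ≤ ε := by
  haveI := secondCountable_quotient Γ
  set c := ∫ y, φ y ∂probMeasure Γ with hc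
  obtain ⟨V, hV, hVo, hV1⟩ := mem_nhds_iff.1 (eventually_piece Γ φ (show 0 < ε / 3 by positivity))
  set O : SL(2, ℝ) ⧸ Γ → Set (SL(2, ℝ) ⧸ Γ) := fun x => (fun g : SL(2, ℝ) => g • x) '' V with hOdef
  have hOo : ∀ x, IsOpen (O x) := fun x => by
    induction x using QuotientGroup.induction_on with
    | _ a => exact ((QuotientGroup.isOpenMap_coe).comp (isOpenMap_mul_right a)) _ hVo
  have hOmem : ∀ x, x ∈ O x := fun x => ⟨1, hV1, one_smul _ _⟩
  obtain ⟨T, hT⟩ := isCompact_univ.elim_finite_subcover O hOo fun x _ => mem_iUnion.2 ⟨x, hOmem x⟩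
  have hlim : ∀ᶠ t in atTop, ∀ x ∈ T, |(∫ y in O x, piece Γ φ t y ∂probMeasure Γ) -
      c * (probMeasure Γ).real (O x)| < ε / 3 * (probMeasure Γ).real (O x) :=
    T.eventually_all.2 fun x _ => by
      have h := tendsto_setIntegral_piece Γ φ (hOo x).measurableSet
      have hp : 0 < (probMeasure Γ).real (O x) := probMeasure_open_pos Γ (hOo x) ⟨x, hOmem x⟩
      exact (Metric.tendsto_nhds.1 h (ε / 3 * (probMeasure Γ).real (O x)) (by positivity)).mono
        fun t ht => by
        rwa [Real.dist_eq] at ht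
  filter_upwards [hlim, eventually_ge_atTop 0] with t ht ht0 x
  obtain ⟨x₀, hx₀, g, hg, rfl⟩ := mem_iUnion₂.1 (hT (mem_univ x))
  have hnear : ∀ y ∈ O x₀, |piece Γ φ t y - piece Γ φ t x₀| ≤ ε / 3 := by
    rintro _ ⟨k, hk, rfl⟩
    exact hV hk t ht0 x₀
  have hpm : StronglyMeasurable fun y => piece Γ φ t y := by
    simp only [piece, intervalIntegral.integral_of_le zero_le_one]
    exact ((φ.continuous.comp ((continuous_const.mul (continuous_upperU.comp continuous_snd)).smul
      continuous_fst)).stronglyMeasurable).integral_prod_right'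
        (ν := (volume : Measure ℝ).restrict (Ioc 0 1))
  have hpi : IntegrableOn (fun y => piece Γ φ t y) (O x₀) (probMeasure Γ) :=
    IntegrableOn.of_bound (measure_lt_top _ _) hpm.aestronglyMeasurable.restrict ‖φ‖
      (.of_forall fun y => by
        rw [piece]
        exact (intervalIntegral.norm_integral_le_of_norm_le_const
          fun s _ => φ.norm_coe_le_norm _).trans (by simp))
  set m := (probMeasure Γ).real (O x₀) with hm
  have hm0 : 0 < m := probMeasure_open_pos Γ (hOo x₀) ⟨x₀, hOmem x₀⟩
  have h1 : |(∫ y in O x₀, piece Γ φ t y ∂probMeasure Γ) - piece Γ φ t x₀ * m| ≤ ε / 3 * m := by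
    have hi : IntegrableOn (fun _ => piece Γ φ t x₀) (O x₀) (probMeasure Γ) := integrable_const _
    rw [show piece Γ φ t x₀ * m = ∫ _ in O x₀, piece Γ φ t x₀ ∂probMeasure Γ by
      rw [setIntegral_const, smul_eq_mul, mul_comm], ← integral_sub hpi hi, ← Real.norm_eq_abs]
    exact norm_setIntegral_le_of_norm_le_const (measure_lt_top _ _) hnear
  have h2 : |piece Γ φ t x₀ - c| * m ≤ 2 * ε / 3 * m := by
    have h3 := abs_sub_le (piece Γ φ t x₀ * m) (∫ y in O x₀, piece Γ φ t y ∂probMeasure Γ) (c * m)
    rw [← sub_mul, abs_mul, abs_of_pos hm0, abs_sub_comm (piece Γ φ t x₀ * m)] at h3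
    linarith [ht x₀ hx₀]
  have h4 := le_of_mul_le_mul_right h2 hm0
  have h5 := abs_sub_le (piece Γ φ t (g • x₀)) (piece Γ φ t x₀) c
  linarith [hV hg t ht0 x₀]

/-- The average along a horocycle. -/
def horoAverage (φ : C(SL(2, ℝ) ⧸ Γ, ℝ)) (T : ℝ) (x : SL(2, ℝ) ⧸ Γ) : ℝ :=
  T⁻¹ * ∫ s in (0 : ℝ)..T, φ (upperU s • x)

/-- **Uniform equidistribution of horocycles.** -/
theorem eventually_horoAverage (φ : C(SL(2, ℝ) ⧸ Γ, ℝ)) {ε : ℝ} (hε : 0 < ε) :
    ∀ᶠ T in atTop, ∀ x, |horoAverage Γ φ T x - ∫ y, φ y ∂probMeasure Γ| ≤ ε := by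
  have hlog : Tendsto (fun T : ℝ => Real.log T / 2) atTop atTop :=
    Real.tendsto_log_atTop.atTop_div_const two_pos
  filter_upwards [hlog.eventually (eventually_piece_mean Γ φ hε), eventually_gt_atTop 0]
    with T hT hT0 x
  have e : horoAverage Γ φ T x = piece Γ φ (Real.log T / 2) (diagA (-(Real.log T / 2)) • x) := by
    have h1 : ∀ s, (diagA (Real.log T / 2) * upperU s) • diagA (-(Real.log T / 2)) • x =
        upperU (s * T) • x := fun s => by
      rw [← mul_smul, ← diagA_inv]
      congr 1
      rw [mul_inv_eq_iff_eq_mul, upperU_mul_diagA,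
        show -(2 * (Real.log T / 2)) = -Real.log T by ring, Real.exp_neg, Real.exp_log hT0, mul_assoc, mul_inv_cancel₀ hT0.ne', mul_one]
    simp only [piece, h1]
    rw [intervalIntegral.integral_comp_mul_right (fun u => φ (upperU u • x)) hT0.ne', zero_mul,
      one_mul, smul_eq_mul, horoAverage]
  rw [e]
  exact hT _

/-- **Unique ergodicity.** -/
theorem eq_probMeasure_of_invariant (μ : Measure (SL(2, ℝ) ⧸ Γ)) [IsProbabilityMeasure μ]
    (hμ : ∀ s, MeasurePreserving (fun x => upperU s • x) μ μ) : μ = probMeasure Γ := by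
  haveI := secondCountable_quotient Γ
  refine ext_of_forall_integral_eq_of_IsFiniteMeasure fun f => ?_
  set φ : C(SL(2, ℝ) ⧸ Γ, ℝ) := f.toContinuousMap
  have hcont : Continuous fun p : (SL(2, ℝ) ⧸ Γ) × ℝ => φ (upperU p.2 • p.1) :=
    φ.continuous.comp ((continuous_upperU.comp continuous_snd).smul continuous_fst)
  have havg : ∀ T : ℝ, 0 < T → ∫ x, horoAverage Γ φ T x ∂μ = ∫ x, φ x ∂μ := fun T hT => by
    simp only [horoAverage, intervalIntegral.integral_of_le hT.le, integral_const_mul]
    rw [integral_integral_swap (Integrable.of_bound hcont.aestronglyMeasurable ‖φ‖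
      (.of_forall fun p => φ.norm_coe_le_norm _))]
    have hc : ∀ s, ∫ x, φ (upperU s • x) ∂μ = ∫ x, φ x ∂μ := fun s =>
      (hμ s).integral_comp (Homeomorph.smul (upperU s)).measurableEmbedding φ
    simp only [hc, setIntegral_const, measureReal_def, Real.volume_Ioc, sub_zero,
      ENNReal.toReal_ofReal hT.le, smul_eq_mul]
    rw [← mul_assoc, inv_mul_cancel₀ hT.ne', one_mul]
  refine eq_of_forall_dist_le fun ε hε => ?_
  obtain ⟨T, hT, hT0⟩ := ((eventually_horoAverage Γ φ hε).and (eventually_gt_atTop 0)).exists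
  have hm : StronglyMeasurable fun x => horoAverage Γ φ T x := by
    simp only [horoAverage, intervalIntegral.integral_of_le hT0.le]
    exact (hcont.stronglyMeasurable.integral_prod_right'
      (ν := (volume : Measure ℝ).restrict (Ioc 0 T))).const_mul _
  have hi : Integrable (fun x => horoAverage Γ φ T x) μ :=
    Integrable.of_bound hm.aestronglyMeasurable (|∫ y, φ y ∂probMeasure Γ| + ε)
      (.of_forall fun x => by
        have h := abs_sub_abs_le_abs_sub (horoAverage Γ φ T x) (∫ y, φ y ∂probMeasure Γ)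
        rw [Real.norm_eq_abs]
        linarith [hT x])
  show dist (∫ x, φ x ∂μ) (∫ x, φ x ∂probMeasure Γ) ≤ ε
  have e : (∫ x, φ x ∂μ) - (∫ x, φ x ∂probMeasure Γ) =
      ∫ x, (horoAverage Γ φ T x - ∫ y, φ y ∂probMeasure Γ) ∂μ := by
    rw [integral_sub hi (integrable_const _), havg T hT0, integral_const, probReal_univ, one_smul]
  rw [Real.dist_eq, e, ← Real.norm_eq_abs]
  exact (norm_integral_le_of_norm_le_const (.of_forall hT)).trans (by simp)

/-- **Every horocycle is dense.** -/
theorem dense_horocycle (x : SL(2, ℝ) ⧸ Γ) : Dense (range fun s => upperU s • x) := by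
  haveI := secondCountable_quotient Γ
  refine dense_iff_inter_open.2 fun O hO ⟨y, hy⟩ => ?_
  obtain ⟨f, h1, h0, -, hf01⟩ := exists_continuous_one_zero_of_isCompact
    (isCompact_singleton (x := y)) hO.isClosed_compl (disjoint_singleton_left.2 (not_not.2 hy))
  have hpos : 0 < ∫ z, f z ∂probMeasure Γ := by
    refine (integral_pos_iff_support_of_nonneg (fun z => (hf01 z).1)
      (f.continuous.integrable_of_hasCompactSupport (HasCompactSupport.of_compactSpace _))).2 ?_
    exact (ENNReal.toReal_pos_iff.1 (probMeasure_open_pos Γ f.continuous.isOpen_support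
      ⟨y, by rw [Function.mem_support, h1 (mem_singleton y)]; exact one_ne_zero⟩)).1
  obtain ⟨T, hT⟩ := (eventually_horoAverage Γ f (show 0 < (∫ z, f z ∂probMeasure Γ) / 2 by
    positivity)).exists
  by_contra hne
  have hzero : ∀ s, f (upperU s • x) = 0 := fun s => h0 fun hmem => hne ⟨_, hmem, s, rfl⟩
  have h := hT x
  rw [horoAverage] at h
  simp only [hzero, intervalIntegral.integral_zero, mul_zero, zero_sub, abs_neg,
    abs_of_pos hpos] at h
  linarith

end FA.Horocycle

end
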