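import Fermat.Agent.CompactQuotient.Measure
import Fermat.Agent.HoweMoore.Mixing
import Fermat.Agent.SLnLattice.Cone
import Mathlib.Dynamics.Ergodic.Action.Regular

/-!
# Compact quotients of `SL(2, ℝ)` are mixing

The normalised invariant measure on a compact quotient is ergodic because the group acts ergodically
on itself, so by Howe and Moore the integral of a translated continuous function over any set tends
to the product of the integral and the mass.
-/

set_option autoImplicit false
set_option linter.unusedSectionVars false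
set_option linter.style.haveILetI false

noncomputable section

open MeasureTheory MeasureTheory.Measure Filter Topology Set
open scoped MatrixGroups InnerProductSpace ENNReal Pointwise

namespace FA.Horocycle

open FA.CompactQuotient

section General

variable {G : Type*} [Group G] [TopologicalSpace G] [IsTopologicalGroup G] [T2Space G]
  [LocallyCompactSpace G] [SecondCountableTopology G] (Γ : Subgroup G) [DiscreteTopology Γ]
  [CompactSpace (G ⧸ Γ)] [MeasurableSpace G] [BorelSpace G] [Countable Γ]

/-- The invariant probability measure. -/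
def probMeasure : Measure (G ⧸ Γ) := (quotMeasure Γ univ)⁻¹ • quotMeasure Γ

theorem inv_mass_ne_zero : (quotMeasure Γ univ)⁻¹ ≠ 0 :=
  ENNReal.inv_ne_zero.2 (measure_ne_top _ _)

instance isProbabilityMeasure_probMeasure : IsProbabilityMeasure (probMeasure Γ) :=
  ⟨by rw [probMeasure, Measure.smul_apply, smul_eq_mul, ENNReal.inv_mul_cancel
    (fun h => quotMeasure_ne_zero Γ (Measure.measure_univ_eq_zero.1 h)) (measure_ne_top _ _)]⟩

instance smulInvariant_probMeasure : SMulInvariantMeasure G (G ⧸ Γ) (probMeasure Γ) :=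
  ⟨fun g A hA => by
    rw [probMeasure, Measure.smul_apply, Measure.smul_apply,
      SMulInvariantMeasure.measure_preimage_smul g hA]⟩

theorem ae_probMeasure {P : G ⧸ Γ → Prop} :
    (∀ᵐ x ∂probMeasure Γ, P x) ↔ ∀ᵐ x ∂quotMeasure Γ, P x := by
  rw [Filter.Eventually, Filter.Eventually, mem_ae_iff, mem_ae_iff, probMeasure, Measure.smul_apply,
    smul_eq_mul, mul_eq_zero, or_iff_right (inv_mass_ne_zero Γ)]

/-- A null set pulls back to a null set. -/
theorem preimage_null {A : Set (G ⧸ Γ)} (hA : MeasurableSet A) (h : quotMeasure Γ A = 0) :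
    (haar : Measure G) ((QuotientGroup.mk : G → G ⧸ Γ) ⁻¹' A) = 0 := by
  haveI := isMulRightInvariant_of_cocompact Γ
  set B := (QuotientGroup.mk : G → G ⧸ Γ) ⁻¹' A with hB
  rw [quotMeasure_apply Γ hA] at h
  refine measure_mono_null (t := ⋃ γ : Γ, (· * (γ : G)) ⁻¹' (B ∩ domain Γ)) (fun x hx => ?_)
    (measure_iUnion_null fun γ => by rw [measure_preimage_mul_right]; exact h)
  obtain ⟨γ, hγ, -⟩ := existsUnique_domain Γ x
  refine mem_iUnion.2 ⟨γ, ?_, hγ⟩
  show (QuotientGroup.mk (x * (γ : G)) : G ⧸ Γ) ∈ A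
  rw [QuotientGroup.mk_mul_of_mem x γ.2]
  exact hx

/-- **The group acts ergodically on its compact quotient.** -/
instance ergodicSMul_probMeasure : ErgodicSMul G (G ⧸ Γ) (probMeasure Γ) := by
  haveI := sigmaCompactSpace_of_cocompact Γ
  refine ⟨fun {s} hsm hs => ?_⟩
  set π : G → G ⧸ Γ := QuotientGroup.mk
  have hsG : MeasurableSet (π ⁻¹' s) := hsm
  have h : ∀ g : G, (g • ·) ⁻¹' (π ⁻¹' s) =ᵐ[(haar : Measure G)] π ⁻¹' s := fun g => by
    have h0 : (quotMeasure Γ) ((g • ·) ⁻¹' s \ s ∪ s \ (g • ·) ⁻¹' s) = 0 := by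
      have h1 := measure_symmDiff_eq_zero_iff.2 (hs g)
      rw [probMeasure, Measure.smul_apply, smul_eq_mul, mul_eq_zero,
        or_iff_right (inv_mass_ne_zero Γ)] at h1
      exact h1
    have hm : MeasurableSet ((g • ·) ⁻¹' s : Set (G ⧸ Γ)) :=
      (continuous_const_smul g).measurable hsm
    exact measure_symmDiff_eq_zero_iff.1
      (preimage_null Γ ((hm.diff hsm).union (hsm.diff hm)) h0)
  have hc := ErgodicSMul.aeconst_of_forall_preimage_smul_ae_eq (μ := (haar : Measure G)) hsG h
  rw [eventuallyConst_set] at hc ⊢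
  rw [ae_probMeasure, ae_probMeasure]
  have down : ∀ {P : G ⧸ Γ → Prop}, MeasurableSet {x | P x} →
      (∀ᵐ g ∂(haar : Measure G), P (π g)) → ∀ᵐ x ∂quotMeasure Γ, P x := fun hP hg =>
    (ae_map_iff (measurable_mk Γ).aemeasurable hP).2 (ae_restrict_of_ae hg)
  exact hc.imp (fun hc => down hsm hc) fun hc => down hsm.compl hc

theorem probMeasure_open_pos {O : Set (G ⧸ Γ)} (hO : IsOpen O) (hne : O.Nonempty) :
    0 < (probMeasure Γ).real O := by
  refine ENNReal.toReal_pos (fun h => ?_) (measure_ne_top _ _)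
  have h0 : quotMeasure Γ O = 0 := by
    rwa [probMeasure, Measure.smul_apply, smul_eq_mul, mul_eq_zero,
      or_iff_right (inv_mass_ne_zero Γ)] at h
  exact (hO.preimage (continuous_mk Γ)).measure_ne_zero (haar : Measure G)
    (hne.preimage QuotientGroup.mk_surjective) (preimage_null Γ hO.measurableSet h0)

end General

variable (Γ : Subgroup SL(2, ℝ)) [DiscreteTopology Γ] [CompactSpace (SL(2, ℝ) ⧸ Γ)] [Countable Γ]
  [MeasurableSpace SL(2, ℝ)] [BorelSpace SL(2, ℝ)]

/-- The translates `diagA t * upperU s` leave every compact set. -/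
theorem tendsto_diagA_upperU (s : ℝ) :
    Tendsto (fun t => (FA.HoweMoore.diagA t * FA.HoweMoore.upperU s)⁻¹) atTop
      (cocompact SL(2, ℝ)) := by
  refine (Homeomorph.inv SL(2, ℝ)).isClosedEmbedding.tendsto_cocompact.comp ?_
  refine hasBasis_cocompact.tendsto_right_iff.2 fun K hK => ?_
  obtain ⟨M, hM⟩ := hK.bddAbove_image (f := fun g : SL(2, ℝ) => g 0 0)
    ((continuous_apply 0).comp ((continuous_apply 0).comp continuous_subtype_val)).continuousOn
  filter_upwards [Real.tendsto_exp_atTop.eventually_gt_atTop M] with t ht hmem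
  have h := hM ⟨_, hmem, rfl⟩
  simp [FA.HoweMoore.mul_apply2, FA.HoweMoore.diagA, FA.HoweMoore.upperU] at h
  linarith

/-- **Mixing for continuous functions.** -/
theorem tendsto_setIntegral_translate (φ : C(SL(2, ℝ) ⧸ Γ, ℝ)) {O : Set (SL(2, ℝ) ⧸ Γ)}
    (hO : MeasurableSet O) (s : ℝ) :
    Tendsto (fun t => ∫ x in O, φ ((FA.HoweMoore.diagA t * FA.HoweMoore.upperU s) • x)
        ∂probMeasure Γ) atTop
      (𝓝 ((∫ x, φ x ∂probMeasure Γ) * (probMeasure Γ).real O)) := by
  set ν := probMeasure Γ with hν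
  haveI : SecondCountableTopology (SL(2, ℝ) ⧸ Γ) :=
    (QuotientGroup.isOpenQuotientMap_mk).isQuotientMap.secondCountableTopology
      QuotientGroup.isOpenQuotientMap_mk.isOpenMap
  set c := ∫ x, φ x ∂ν with hc
  have hφm : MemLp (fun x => φ x - c) 2 ν :=
    (φ.continuous.sub continuous_const).memLp_of_hasCompactSupport
      (HasCompactSupport.of_compactSpace _)
  set v := hφm.toLp _ with hv
  have hperp : ∀ z, (∀ g, FA.HoweMoore.koopman ν g z = z) → ⟪v, z⟫_ℝ = 0 := fun z hz => by
    obtain ⟨a, rfl⟩ := FA.HoweMoore.exists_eq_const_of_fixed hz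
    rw [L2.inner_def]
    have e : ∫ x, ⟪v x, (Lp.const 2 ν a : SL(2, ℝ) ⧸ Γ → ℝ) x⟫_ℝ ∂ν = ∫ x, a * (φ x - c) ∂ν := by
      refine integral_congr_ae ?_
      filter_upwards [hφm.coeFn_toLp, Lp.coeFn_const (μ := ν) (p := 2) a] with x h1 h2
      rw [hv, h1, h2]
      rfl
    rw [e, integral_const_mul, integral_sub
      (φ.continuous.integrable_of_hasCompactSupport (HasCompactSupport.of_compactSpace _))
      (integrable_const _), integral_const, probReal_univ, one_smul, sub_self, mul_zero]
  have h := (FA.HoweMoore.tendsto_inner_cocompact (FA.HoweMoore.koopman ν)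
    FA.HoweMoore.continuous_koopman hperp (indicatorConstLp 2 hO (measure_ne_top ν O) (1 : ℝ))).comp
      (tendsto_diagA_upperU s)
  have e : ∀ g : SL(2, ℝ),
      ⟪FA.HoweMoore.koopman ν g⁻¹ v, indicatorConstLp 2 hO (measure_ne_top ν O) (1 : ℝ)⟫_ℝ =
        (∫ x in O, φ (g • x) ∂ν) - c * ν.real O := fun g => by
    rw [real_inner_comm, L2.inner_indicatorConstLp_one]
    have hae : (FA.HoweMoore.koopman ν g⁻¹ v : SL(2, ℝ) ⧸ Γ → ℝ) =ᵐ[ν] fun x => φ (g • x) - c := by
      rw [FA.HoweMoore.koopman_apply, inv_inv]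
      refine (DomMulAct.smul_Lp_ae_eq (DomMulAct.mk g) v).trans ?_
      exact ((measurePreserving_smul g ν).quasiMeasurePreserving.ae hφm.coeFn_toLp).mono
        fun x hx => by simpa using hx
    have hi : IntegrableOn (fun x => φ (g • x)) O ν :=
      ((φ.continuous.comp (continuous_const_smul g)).integrable_of_hasCompactSupport
        (HasCompactSupport.of_compactSpace _)).integrableOn
    rw [setIntegral_congr_ae hO (hae.mono fun x hx _ => hx), integral_sub hi (integrable_const _),
      setIntegral_const, smul_eq_mul, mul_comm]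
  simp only [Function.comp_def, e] at h
  simpa using h.add_const (c * ν.real O)

end FA.Horocycle

end
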